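/-
GATE-Z, seam (HCOMM) of helper36 5950, ABSTRACT part (helper67).  Mathlib only.

`G` a group acting on an abelian group `J` by automorphisms, `MW ≤ J` the subgroup of `G`-fixed
elements, finitely generated (Mordell–Weil); `J` divisible.  An additive endomorphism `φ` of `J`
which is `G`-equivariant and kills the torsion of `J` vanishes on `MW`:

  for `z ∈ MW` and `m > 0` pick `R` with `m • R = z`; `σ • R - R` is `m`-torsion, so
  `σ • φ R = φ R`, i.e. `φ R ∈ MW`, and `φ z = m • φ R ∈ m • MW` for EVERY `m`; in a finitely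
  generated abelian group `⋂ₘ m • MW = 0`.

Application (`commute_on_fixed`, `isOfFinAddOrder_comm`): Hecke operators `T i` which are
`G`-equivariant and commute on the torsion of `J` commute on `MW` — the `hcomm` binder of
`GZ/Nak.exists_adjoin_kill` VERBATIM.
-/
import Mathlib

set_option autoImplicit false

namespace Fermat.Agent.GZ.HComm

/-! ### Finitely generated abelian groups: `⋂ₘ m • M` is `0` -/

section FG

variable {M : Type*} [AddCommGroup M]

/-- in a finitely generated free `ℤ`-module, an element divisible by every `m > 0` is `0` -/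
theorem eq_zero_of_forall_dvd_of_free [Module.Free ℤ M] [Module.Finite ℤ M] {x : M}
    (h : ∀ m : ℕ, 0 < m → ∃ y : M, m • y = x) : x = 0 := by
  classical
  let b := Module.Free.chooseBasis ℤ M
  apply b.repr.injective
  rw [map_zero]
  ext i
  rw [Finsupp.zero_apply]
  by_contra hne
  obtain ⟨n, hn⟩ : ∃ n : ℕ, n = (b.repr x i).natAbs + 1 := ⟨_, rfl⟩
  obtain ⟨y, hy⟩ := h n (by omega)
  have h1 : b.repr x i = (n : ℤ) * b.repr y i := by
    have := congrArg (fun z => b.repr z i) hy
    simp only [map_nsmul, Finsupp.smul_apply, nsmul_eq_mul] at this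
    exact this.symm
  have h2 : (n : ℤ) ∣ b.repr x i := ⟨_, h1⟩
  have h3 := Int.natAbs_dvd_natAbs.2 h2
  rw [Int.natAbs_natCast] at h3
  have := Nat.le_of_dvd (Int.natAbs_pos.2 hne) h3
  omega

/-- in a finitely generated abelian group, an element divisible by every `m > 0` is torsion -/
theorem isOfFinAddOrder_of_forall_dvd [Module.Finite ℤ M] {x : M}
    (h : ∀ m : ℕ, 0 < m → ∃ y : M, m • y = x) : IsOfFinAddOrder x := by
  have hfree : Module.Free ℤ (M ⧸ Submodule.torsion ℤ M) :=
    Module.free_of_finite_type_torsion_free'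
  have h0 : Submodule.Quotient.mk (p := Submodule.torsion ℤ M) x = 0 := by
    apply eq_zero_of_forall_dvd_of_free
    intro m hm
    obtain ⟨y, hy⟩ := h m hm
    exact ⟨Submodule.Quotient.mk y, by rw [← hy]; rfl⟩
  rw [Submodule.Quotient.mk_eq_zero, Submodule.mem_torsion_iff] at h0
  obtain ⟨a, ha⟩ := h0
  have ha0 : (a : ℤ) ≠ 0 := nonZeroDivisors.coe_ne_zero a
  rw [isOfFinAddOrder_iff_nsmul_eq_zero]
  refine ⟨(a : ℤ).natAbs, Int.natAbs_pos.2 ha0, ?_⟩
  have h1 : ((a : ℤ).natAbs : ℤ) • x = 0 := by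
    rcases Int.natAbs_eq (a : ℤ) with h2 | h2
    · rw [← h2]; exact ha
    · have : ((a : ℤ).natAbs : ℤ) = -(a : ℤ) := by omega
      rw [this, neg_smul]
      exact neg_eq_zero.2 ha
  rwa [natCast_zsmul] at h1

/-- a finitely generated abelian group has a positive exponent on its torsion -/
theorem exists_torsion_exponent [Module.Finite ℤ M] :
    ∃ e : ℕ, 0 < e ∧ ∀ x : M, IsOfFinAddOrder x → e • x = 0 := by
  classical
  -- the torsion submodule is finitely generated, kill the generators one by one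
  have hN : IsNoetherian ℤ M := isNoetherian_of_isNoetherianRing_of_finite ℤ M
  obtain ⟨S, hS⟩ := (isNoetherian_def.1 hN) (Submodule.torsion ℤ M)
  have hSt : ∀ s ∈ S, IsOfFinAddOrder s := by
    intro s hs
    have hs' : s ∈ Submodule.torsion ℤ M := hS ▸ Submodule.subset_span hs
    rw [Submodule.mem_torsion_iff] at hs'
    obtain ⟨a, ha⟩ := hs'
    have ha0 : (a : ℤ) ≠ 0 := nonZeroDivisors.coe_ne_zero a
    rw [isOfFinAddOrder_iff_nsmul_eq_zero]
    refine ⟨(a : ℤ).natAbs, Int.natAbs_pos.2 ha0, ?_⟩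
    have h1 : ((a : ℤ).natAbs : ℤ) • s = 0 := by
      rcases Int.natAbs_eq (a : ℤ) with h2 | h2
      · rw [← h2]; exact ha
      · have : ((a : ℤ).natAbs : ℤ) = -(a : ℤ) := by omega
        rw [this, neg_smul]
        exact neg_eq_zero.2 ha
    rwa [natCast_zsmul] at h1
  refine ⟨∏ s ∈ S, addOrderOf s, Finset.prod_pos fun s hs => (hSt s hs).addOrderOf_pos, ?_⟩
  intro x hx
  have hx' : x ∈ Submodule.torsion ℤ M := by
    rw [Submodule.mem_torsion_iff]
    obtain ⟨n, hn, hnx⟩ := isOfFinAddOrder_iff_nsmul_eq_zero.1 hx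
    refine ⟨⟨(n : ℤ), mem_nonZeroDivisors_of_ne_zero (by exact_mod_cast hn.ne')⟩, ?_⟩
    change (n : ℤ) • x = 0
    rw [natCast_zsmul]
    exact hnx
  rw [← hS] at hx'
  refine Submodule.span_induction (p := fun y _ => (∏ s ∈ S, addOrderOf s) • y = 0)
    ?_ ?_ ?_ ?_ hx'
  · intro s hs
    obtain ⟨c, hc⟩ := Finset.dvd_prod_of_mem (fun s => addOrderOf s) hs
    rw [hc, mul_nsmul, addOrderOf_nsmul_eq_zero, smul_zero]
  · exact smul_zero _
  · intro y z _ _ hy hz
    rw [smul_add, hy, hz, add_zero]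
  · intro a y _ hy
    rw [smul_comm, hy, smul_zero]

/-- **In a finitely generated abelian group, `⋂ₘ m • M = 0`.** -/
theorem eq_zero_of_forall_dvd [Module.Finite ℤ M] {x : M}
    (h : ∀ m : ℕ, 0 < m → ∃ y : M, m • y = x) : x = 0 := by
  obtain ⟨e, he, hkill⟩ := exists_torsion_exponent (M := M)
  have hx : IsOfFinAddOrder x := isOfFinAddOrder_of_forall_dvd h
  obtain ⟨y, hy⟩ := h e he
  have hy' : IsOfFinAddOrder y := by
    obtain ⟨n, hn, hnx⟩ := isOfFinAddOrder_iff_nsmul_eq_zero.1 hx
    rw [isOfFinAddOrder_iff_nsmul_eq_zero]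
    refine ⟨e * n, Nat.mul_pos he hn, ?_⟩
    rw [mul_nsmul, hy, hnx]
  rw [← hy]
  exact hkill y hy'

end FG

/-! ### The vanishing lemma -/

section Main

variable {G J : Type*} [Group G] [AddCommGroup J] [DistribMulAction G J]

/-- **(HCOMM), abstract form.**  A `G`-equivariant additive endomorphism of a divisible group `J`
killing the torsion of `J` vanishes on the (finitely generated) group of `G`-fixed elements. -/
theorem eq_zero_on_fixed (φ : J →+ J) (hGal : ∀ (σ : G) (z : J), φ (σ • z) = σ • φ z)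
    (htors : ∀ z : J, IsOfFinAddOrder z → φ z = 0)
    (hdiv : ∀ (z : J) (m : ℕ), 0 < m → ∃ R : J, m • R = z)
    (hfg : (FixedPoints.addSubgroup G J).FG) (z : J) (hz : ∀ σ : G, σ • z = z) : φ z = 0 := by
  have hmod : Module.Finite ℤ (FixedPoints.addSubgroup G J) := by
    rw [Module.Finite.iff_addGroup_fg]
    exact (AddGroup.fg_iff_addSubgroup_fg _).2 hfg
  -- `φ` preserves the fixed subgroup
  have hφfix : ∀ w : J, (∀ σ : G, σ • w = w) → ∀ σ : G, σ • φ w = φ w := by
    intro w hw σ
    rw [← hGal, hw]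
  have key : (⟨φ z, (FixedPoints.mem_addSubgroup G J _).2 (hφfix z hz)⟩ :
      FixedPoints.addSubgroup G J) = 0 := by
    apply eq_zero_of_forall_dvd
    intro m hm
    obtain ⟨R, hR⟩ := hdiv z m hm
    have hRfix : ∀ σ : G, σ • φ R = φ R := by
      intro σ
      have h1 : IsOfFinAddOrder (σ • R - R) := by
        rw [isOfFinAddOrder_iff_nsmul_eq_zero]
        refine ⟨m, hm, ?_⟩
        rw [smul_sub, smul_comm m σ R, hR, hz, sub_self]
      have h2 := htors _ h1
      rw [map_sub, hGal, sub_eq_zero] at h2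
      exact h2
    refine ⟨⟨φ R, (FixedPoints.mem_addSubgroup G J _).2 hRfix⟩, ?_⟩
    apply Subtype.ext
    rw [AddSubgroup.coe_nsmul]
    change m • φ R = φ z
    rw [← map_nsmul, hR]
  exact congrArg Subtype.val key

/-- **(HCOMM) for a family of operators**: `G`-equivariant additive endomorphisms of a divisible
`J` which commute on the torsion of `J` commute on the `G`-fixed elements. -/
theorem commute_on_fixed {ι : Type*} (T : ι → AddMonoid.End J)
    (hGal : ∀ (i : ι) (σ : G) (z : J), T i (σ • z) = σ • T i z)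
    (htors : ∀ (i j : ι) (z : J), IsOfFinAddOrder z → T i (T j z) = T j (T i z))
    (hdiv : ∀ (z : J) (m : ℕ), 0 < m → ∃ R : J, m • R = z)
    (hfg : (FixedPoints.addSubgroup G J).FG) (i j : ι) (z : J) (hz : ∀ σ : G, σ • z = z) :
    T i (T j z) = T j (T i z) := by
  have h := eq_zero_on_fixed (G := G) ((T i * T j - T j * T i : AddMonoid.End J) : J →+ J)
    (fun σ w => by
      change T i (T j (σ • w)) - T j (T i (σ • w)) = σ • (T i (T j w) - T j (T i w))
      rw [hGal j, hGal i, hGal i, hGal j, smul_sub])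
    (fun w hw => by
      change T i (T j w) - T j (T i w) = 0
      rw [htors i j w hw, sub_self])
    hdiv hfg z hz
  change T i (T j z) - T j (T i z) = 0 at h
  exact sub_eq_zero.1 h

/-- the `hcomm` binder of `GZ/Nak.exists_adjoin_kill`, VERBATIM, for
`MW = FixedPoints.addSubgroup G J` -/
theorem isOfFinAddOrder_comm {ι : Type*} (T : ι → AddMonoid.End J)
    (hGal : ∀ (i : ι) (σ : G) (z : J), T i (σ • z) = σ • T i z)
    (htors : ∀ (i j : ι) (z : J), IsOfFinAddOrder z → T i (T j z) = T j (T i z))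
    (hdiv : ∀ (z : J) (m : ℕ), 0 < m → ∃ R : J, m • R = z)
    (hfg : (FixedPoints.addSubgroup G J).FG) :
    ∀ i j, ∀ z ∈ FixedPoints.addSubgroup G J, IsOfFinAddOrder (T i (T j z) - T j (T i z)) := by
  intro i j z hz
  rw [commute_on_fixed T hGal htors hdiv hfg i j z ((FixedPoints.mem_addSubgroup G J z).1 hz),
    sub_self]
  exact IsOfFinAddOrder.zero

/-- the stability binder `hT` of `GZ/Nak` from equivariance -/
theorem map_mem_fixed {ι : Type*} (T : ι → AddMonoid.End J)
    (hGal : ∀ (i : ι) (σ : G) (z : J), T i (σ • z) = σ • T i z) :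
    ∀ i, ∀ z ∈ FixedPoints.addSubgroup G J, T i z ∈ FixedPoints.addSubgroup G J := by
  intro i z hz
  rw [FixedPoints.mem_addSubgroup] at hz ⊢
  intro σ
  rw [← hGal, hz]

end Main

end Fermat.Agent.GZ.HComm
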