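/-
GATE-Z, node (NAK) (helper94).  Mathlib only.

`MW` a finitely generated subgroup of an abelian group `J`, stable under endomorphisms `T i` of `J`
which commute modulo torsion on `MW`; `a i : ℤ`, `r` a prime.  If `(MW / tors) / r` contains no
common eigenvector (`T i ≡ a i`), then some `t` in the `ℤ`-algebra generated by the `T i` kills `MW`
modulo torsion and acts on every exact eigenvector (`T i c = a i • c`) as an integer `e` prime to
`r`.
-/
import Mathlib

set_option autoImplicit false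

namespace Fermat.Agent.GZ.Nak

/-! ### Part 1: a finite module without common eigenvector is killed by some `P` with `ε P = 1` -/

section Finite

variable {R S V : Type*} [CommRing R] [CommRing S] [AddCommGroup V] [Module R V]

theorem card_lt_of_lt [Finite V] {W V' : Submodule R V} (h : W < V') :
    Nat.card W < Nat.card V' := by
  have hss : (W : Set V) ⊂ (V' : Set V) := SetLike.coe_ssubset_coe.mpr h
  have := Set.ncard_lt_ncard hss (Set.toFinite _)
  rwa [← Nat.card_coe_set_eq, ← Nat.card_coe_set_eq] at this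

/-- If `g • ·` is injective on the finite submodule `V'`, some power `g ^ n`, `n > 0`, is the
identity on `V'`. -/
theorem exists_pow_smul_eq_self [Finite V] (V' : Submodule R V) (g : R)
    (hinj : ∀ v ∈ V', g • v = 0 → v = 0) :
    ∃ n : ℕ, 0 < n ∧ ∀ v ∈ V', g ^ n • v = v := by
  classical
  let φ : V' →ₗ[R] V' := LinearMap.lsmul R V' g
  have hφinj : Function.Injective φ := by
    rw [injective_iff_map_eq_zero]
    intro v hv
    have h1 : g • (v : V) = 0 := by
      have := congrArg Subtype.val hv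
      simpa [φ] using this
    exact Subtype.ext (hinj v v.2 h1)
  have hbij : Function.Bijective φ := Finite.injective_iff_bijective.mp hφinj
  let e : Equiv.Perm V' := Equiv.ofBijective φ hbij
  obtain ⟨n, hnpos, hn⟩ := isOfFinOrder_iff_pow_eq_one.mp (isOfFinOrder_of_finite e)
  have hpow : ∀ (k : ℕ) (v : V'), ((e ^ k) v : V) = g ^ k • (v : V) := by
    intro k
    induction k with
    | zero => intro v; simp
    | succ k ih =>
      intro v
      rw [pow_succ', Equiv.Perm.mul_apply, pow_succ', mul_smul, ← ih v]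
      rfl
  refine ⟨n, hnpos, fun v hv => ?_⟩
  have := hpow n ⟨v, hv⟩
  rw [hn] at this
  exact this.symm

/-- **Finite modules.** `V` a finite `R`-module, `ε : R →+* S`, `G ⊆ ker ε` with no nonzero element of
`V` killed by all of `G`.  Then some `P` with `ε P = 1` kills `V`. -/
theorem exists_eps_one_smul_eq_zero [Finite V] (ε : R →+* S) (G : Set R)
    (hG : ∀ g ∈ G, ε g = 0) (hV : ∀ v : V, (∀ g ∈ G, g • v = 0) → v = 0) :
    ∃ P : R, ε P = 1 ∧ ∀ v : V, P • v = 0 := by
  suffices h : ∀ n : ℕ, ∀ V' : Submodule R V, Nat.card V' = n →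
      ∃ P : R, ε P = 1 ∧ ∀ v ∈ V', P • v = 0 by
    obtain ⟨P, hP1, hP⟩ := h _ ⊤ rfl
    exact ⟨P, hP1, fun v => hP v trivial⟩
  intro n
  induction n using Nat.strong_induction_on with
  | _ n ih =>
    intro V' hn
    by_cases hbot : V' = ⊥
    · refine ⟨1, map_one ε, fun v hv => ?_⟩
      rw [hbot, Submodule.mem_bot] at hv
      rw [hv, smul_zero]
    · obtain ⟨v0, hv0, hv0ne⟩ := (Submodule.ne_bot_iff V').mp hbot
      obtain ⟨g, hgG, hgv0⟩ : ∃ g ∈ G, g • v0 ≠ 0 := by
        by_contra hcon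
        refine hv0ne (hV v0 fun g hg => ?_)
        by_contra hne
        exact hcon ⟨g, hg, hne⟩
      let f : V →ₗ[R] V := LinearMap.lsmul R V g
      have hf : ∀ v, f v = g • v := fun v => rfl
      let W : Submodule R V := V' ⊓ LinearMap.ker f
      let U : Submodule R V := V'.map f
      have hUle : U ≤ V' := by
        rintro _ ⟨v, hv, rfl⟩
        exact V'.smul_mem g hv
      have hWlt : W < V' := by
        refine lt_of_le_of_ne inf_le_left fun h => hgv0 ?_
        have h0 : v0 ∈ W := h ▸ hv0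
        exact LinearMap.mem_ker.mp h0.2
      obtain ⟨PW, hPW1, hPW⟩ := ih _ (hn ▸ card_lt_of_lt hWlt) W rfl
      by_cases hWbot : W = ⊥
      · -- `g` is injective on `V'`
        have hinj : ∀ v ∈ V', g • v = 0 → v = 0 := by
          intro v hv hgv
          have hvW : v ∈ W := ⟨hv, LinearMap.mem_ker.mpr hgv⟩
          rw [hWbot, Submodule.mem_bot] at hvW
          exact hvW
        obtain ⟨m, hmpos, hm⟩ := exists_pow_smul_eq_self V' g hinj
        refine ⟨1 - g ^ m, ?_, fun v hv => ?_⟩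
        · rw [map_sub, map_one, map_pow, hG g hgG, zero_pow hmpos.ne', sub_zero]
        · rw [sub_smul, one_smul, hm v hv, sub_self]
      · -- `g V' < V'`
        have hUlt : U < V' := by
          refine lt_of_le_of_ne hUle fun hUV => hWbot ?_
          -- `g • ·` is surjective on `V'`, hence injective
          let φ : V' →ₗ[R] V' := LinearMap.lsmul R V' g
          have hsurj : Function.Surjective φ := by
            rintro ⟨v, hv⟩
            rw [← hUV] at hv
            obtain ⟨u, hu, rfl⟩ := hv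
            exact ⟨⟨u, hu⟩, Subtype.ext rfl⟩
          have hinj : Function.Injective φ := Finite.injective_iff_surjective.mpr hsurj
          rw [eq_bot_iff]
          intro w hw
          have hw0 : φ ⟨w, hw.1⟩ = φ 0 := by
            rw [map_zero]
            exact Subtype.ext (LinearMap.mem_ker.mp hw.2)
          have := congrArg Subtype.val (hinj hw0)
          simpa using this
        obtain ⟨PU, hPU1, hPU⟩ := ih _ (hn ▸ card_lt_of_lt hUlt) U rfl
        refine ⟨PW * PU, by rw [map_mul, hPW1, hPU1, one_mul], fun v hv => ?_⟩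
        rw [mul_smul]
        refine hPW _ ⟨V'.smul_mem PU hv, LinearMap.mem_ker.mpr ?_⟩
        rw [hf, smul_comm]
        exact hPU _ ⟨v, hv, rfl⟩

end Finite

/-! ### Part 2: the Nakayama step -/

section Nakayama

variable {R S N : Type*} [CommRing R] [CommRing S] [AddCommGroup N] [Module R N]

/-- If `P ≡ 1` kills `N / ρ N` with `ρ ∈ ker ε` and `N` is finitely generated, some `Q ≡ 1` kills
`N`. -/
theorem exists_eps_one_smul_eq_zero_of_fg [Module.Finite R N] (ε : R →+* S) (ρ : R)
    (hρ : ε ρ = 0) (P : R) (hP1 : ε P = 1) (hP : ∀ z : N, ∃ w : N, P • z = ρ • w) :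
    ∃ Q : R, ε Q = 1 ∧ ∀ z : N, Q • z = 0 := by
  have hle : (⊤ : Submodule R N) ≤ RingHom.ker ε • (⊤ : Submodule R N) := by
    intro z _
    obtain ⟨w, hw⟩ := hP z
    have h1 : z = ρ • w + (1 - P) • z := by
      rw [← hw, sub_smul, one_smul]
      abel
    rw [h1]
    refine add_mem (Submodule.smul_mem_smul ?_ trivial) (Submodule.smul_mem_smul ?_ trivial)
    · exact (RingHom.mem_ker).mpr hρ
    · rw [RingHom.mem_ker, map_sub, map_one, hP1, sub_self]
  obtain ⟨Q, hQI, hQ⟩ := Submodule.exists_sub_one_mem_and_smul_eq_zero_of_fg_of_le_smul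
    (RingHom.ker ε) ⊤ Module.Finite.fg_top hle
  refine ⟨Q, ?_, fun z => hQ z trivial⟩
  have h := (RingHom.mem_ker).mp hQI
  rwa [map_sub, map_one, sub_eq_zero] at h

/-- **Abstract form.** `N` a finitely generated `R`-module with `N / ρ N` finite, `ρ ∈ ker ε`,
`G ⊆ ker ε`, and no common `G`-eigenvector in `N / ρ N`.  Then some `Q` with `ε Q = 1` kills `N`. -/
theorem exists_eps_one_smul_eq_zero' [Module.Finite R N] (ε : R →+* S) (ρ : R) (hρ : ε ρ = 0)
    (G : Set R) (hG : ∀ g ∈ G, ε g = 0)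
    (hfin : Finite (N ⧸ LinearMap.range (LinearMap.lsmul R N ρ)))
    (hN : ∀ z : N, (∀ g ∈ G, ∃ w : N, g • z = ρ • w) → ∃ w : N, z = ρ • w) :
    ∃ Q : R, ε Q = 1 ∧ ∀ z : N, Q • z = 0 := by
  set Nρ : Submodule R N := LinearMap.range (LinearMap.lsmul R N ρ) with hNρ
  have hmem : ∀ z : N, z ∈ Nρ ↔ ∃ w : N, z = ρ • w := by
    intro z
    rw [hNρ, LinearMap.mem_range]
    constructor
    · rintro ⟨w, hw⟩
      exact ⟨w, hw.symm⟩
    · rintro ⟨w, hw⟩
      exact ⟨w, hw.symm⟩
  have hV : ∀ v : N ⧸ Nρ, (∀ g ∈ G, g • v = 0) → v = 0 := by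
    intro v hv
    obtain ⟨z, rfl⟩ := Submodule.Quotient.mk_surjective Nρ v
    rw [Submodule.Quotient.mk_eq_zero, hmem]
    refine hN z fun g hg => ?_
    have := hv g hg
    rwa [← Submodule.Quotient.mk_smul, Submodule.Quotient.mk_eq_zero, hmem] at this
  obtain ⟨P, hP1, hP⟩ := exists_eps_one_smul_eq_zero ε G hG hV
  refine exists_eps_one_smul_eq_zero_of_fg ε ρ hρ P hP1 fun z => ?_
  have := hP (Submodule.Quotient.mk z)
  rwa [← Submodule.Quotient.mk_smul, Submodule.Quotient.mk_eq_zero, hmem] at this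

end Nakayama

/-! ### Part 3: integer polynomials acting through commuting endomorphisms -/

section Poly

open scoped IsMulCommutative

variable {ι N : Type*} [AddCommGroup N] (S : ι → AddMonoid.End N)
  (hS : ∀ i j, Commute (S i) (S j))

include hS in
theorem isMulCommutative_adjoin_range :
    IsMulCommutative (Algebra.adjoin ℤ (Set.range S)) :=
  Algebra.isMulCommutative_adjoin ℤ (by
    rintro _ ⟨i, rfl⟩ _ ⟨j, rfl⟩
    exact hS i j)

/-- The evaluation of integer polynomials at a commuting family of endomorphisms. -/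
noncomputable def polyHom : MvPolynomial ι ℤ →+* AddMonoid.End N :=
  haveI := isMulCommutative_adjoin_range S hS
  (Algebra.adjoin ℤ (Set.range S)).val.toRingHom.comp
    (MvPolynomial.eval₂Hom (Int.castRingHom _) fun i => ⟨S i, Algebra.subset_adjoin ⟨i, rfl⟩⟩)

theorem polyHom_X (i : ι) : polyHom S hS (MvPolynomial.X i) = S i := by
  unfold polyHom
  simp

theorem polyHom_C (n : ℤ) : polyHom S hS (MvPolynomial.C n) = (n : AddMonoid.End N) := by
  unfold polyHom
  simp

/-- `N` as a module over the polynomial ring. -/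
@[reducible] noncomputable def polyModule : Module (MvPolynomial ι ℤ) N :=
  Module.compHom N (polyHom S hS)

theorem polyModule_smul (P : MvPolynomial ι ℤ) (z : N) :
    letI := polyModule S hS
    P • z = polyHom S hS P z := rfl

end Poly

section PolyKill

variable {ι N : Type*} [AddCommGroup N] (S : ι → AddMonoid.End N)
  (hS : ∀ i j, Commute (S i) (S j))

/-- **Commuting endomorphisms of a finitely generated abelian group.** If `N / r N` has no common
eigenvector (`S i ≡ a i`), some integer polynomial `Q` with `Q(a) ≡ 1 mod r` kills `N`. -/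
theorem exists_poly_kill [AddGroup.FG N] (a : ι → ℤ) (r : ℕ) (hr : 0 < r)
    (hN : ∀ z : N, (∀ i, ∃ w : N, S i z - a i • z = r • w) → ∃ w : N, z = r • w) :
    ∃ Q : MvPolynomial ι ℤ, ((MvPolynomial.eval a Q : ℤ) : ZMod r) = 1 ∧
      ∀ z : N, polyHom S hS Q z = 0 := by
  let _ := polyModule S hS
  have : IsScalarTower ℤ (MvPolynomial ι ℤ) N := ⟨fun n P z => by
    show polyHom S hS (n • P) z = n • polyHom S hS P z
    rw [map_zsmul]
    rfl⟩
  have : Module.Finite ℤ N := Module.Finite.iff_addGroup_fg.mpr ‹_›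
  have : Module.Finite (MvPolynomial ι ℤ) N := Module.Finite.of_restrictScalars_finite ℤ _ N
  let ε : MvPolynomial ι ℤ →+* ZMod r := (Int.castRingHom (ZMod r)).comp (MvPolynomial.eval a)
  let ρ : MvPolynomial ι ℤ := MvPolynomial.C (r : ℤ)
  have hρ : ε ρ = 0 := by simp [ε, ρ]
  let G : Set (MvPolynomial ι ℤ) := Set.range fun i => MvPolynomial.X i - MvPolynomial.C (a i)
  have hG : ∀ g ∈ G, ε g = 0 := by
    rintro _ ⟨i, rfl⟩
    simp [ε]
  have hρsmul : ∀ z : N, ρ • z = r • z := by
    intro z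
    show polyHom S hS (MvPolynomial.C (r : ℤ)) z = r • z
    rw [polyHom_C]
    simp
  have hXsmul : ∀ (i : ι) (z : N),
      (MvPolynomial.X i - MvPolynomial.C (a i) : MvPolynomial ι ℤ) • z = S i z - a i • z := by
    intro i z
    show polyHom S hS (MvPolynomial.X i - MvPolynomial.C (a i)) z = S i z - a i • z
    rw [map_sub, polyHom_X, polyHom_C]
    show S i z - (a i : AddMonoid.End N) z = S i z - a i • z
    rw [AddMonoid.End.intCast_apply]
  have hfin : Finite (N ⧸ LinearMap.range (LinearMap.lsmul (MvPolynomial ι ℤ) N ρ)) := by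
    set Nρ := LinearMap.range (LinearMap.lsmul (MvPolynomial ι ℤ) N ρ)
    have : AddGroup.FG (N ⧸ Nρ) :=
      AddGroup.fg_of_surjective (f := (Nρ.mkQ : N →ₗ[MvPolynomial ι ℤ] N ⧸ Nρ).toAddMonoidHom)
        (Submodule.mkQ_surjective Nρ)
    refine AddCommGroup.finite_of_fg_isAddTorsion _ fun v => ?_
    obtain ⟨z, rfl⟩ := Submodule.Quotient.mk_surjective Nρ v
    refine isOfFinAddOrder_iff_nsmul_eq_zero.mpr ⟨r, hr, ?_⟩
    rw [← Submodule.Quotient.mk_smul, Submodule.Quotient.mk_eq_zero, ← hρsmul z]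
    exact ⟨z, rfl⟩
  obtain ⟨Q, hQ1, hQ⟩ := exists_eps_one_smul_eq_zero' ε ρ hρ G hG hfin (fun z hz => by
    have : ∃ w : N, z = r • w := hN z fun i => by
      obtain ⟨w, hw⟩ := hz _ ⟨i, rfl⟩
      exact ⟨w, by rw [← hXsmul, hw, hρsmul]⟩
    obtain ⟨w, hw⟩ := this
    exact ⟨w, by rw [hρsmul, ← hw]⟩)
  exact ⟨Q, hQ1, hQ⟩

end PolyKill

/-! ### Part 4: the free algebra (the `T i` need not commute on `J`) -/

section Ambient

variable {ι J : Type*} [AddCommGroup J] (T : ι → AddMonoid.End J)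

/-- evaluation of noncommutative polynomials at the `T i`. -/
noncomputable def freeHom : FreeAlgebra ℤ ι →ₐ[ℤ] AddMonoid.End J := FreeAlgebra.lift ℤ T

/-- abelianisation of the free algebra. -/
noncomputable def freeToPoly (ι : Type*) : FreeAlgebra ℤ ι →ₐ[ℤ] MvPolynomial ι ℤ :=
  FreeAlgebra.lift ℤ (MvPolynomial.X : ι → MvPolynomial ι ℤ)

/-- evaluation at integers. -/
noncomputable def freeEval (a : ι → ℤ) : FreeAlgebra ℤ ι →ₐ[ℤ] ℤ := FreeAlgebra.lift ℤ a

theorem freeToPoly_surjective (ι : Type*) : Function.Surjective (freeToPoly ι) := by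
  rw [← AlgHom.range_eq_top, eq_top_iff, ← MvPolynomial.adjoin_range_X, Algebra.adjoin_le_iff]
  rintro _ ⟨i, rfl⟩
  exact ⟨FreeAlgebra.ι ℤ i, by simp [freeToPoly]⟩

theorem freeEval_eq (a : ι → ℤ) (q : FreeAlgebra ℤ ι) :
    freeEval a q = MvPolynomial.eval a (freeToPoly ι q) := by
  have h : freeEval a = (MvPolynomial.aeval a).comp (freeToPoly ι) := by
    apply FreeAlgebra.hom_ext
    funext i
    simp [freeEval, freeToPoly]
  rw [h, AlgHom.comp_apply, MvPolynomial.aeval_eq_eval]

theorem freeHom_mem_adjoin (q : FreeAlgebra ℤ ι) :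
    freeHom T q ∈ Algebra.adjoin ℤ (Set.range T) := by
  induction q with
  | grade0 n => rw [AlgHom.commutes]; exact Subalgebra.algebraMap_mem _ n
  | grade1 i =>
    rw [freeHom, FreeAlgebra.lift_ι_apply]
    exact Algebra.subset_adjoin ⟨i, rfl⟩
  | mul x y hx hy => rw [map_mul]; exact Subalgebra.mul_mem _ hx hy
  | add x y hx hy => rw [map_add]; exact Subalgebra.add_mem _ hx hy

theorem freeHom_eigen (a : ι → ℤ) {c : J} (hc : ∀ i, T i c = a i • c) (q : FreeAlgebra ℤ ι) :
    freeHom T q c = freeEval a q • c := by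
  induction q with
  | grade0 n =>
    rw [AlgHom.commutes, AlgHom.commutes]
    simp
  | grade1 i =>
    rw [freeHom, freeEval, FreeAlgebra.lift_ι_apply, FreeAlgebra.lift_ι_apply, hc]
  | mul x y hx hy =>
    rw [map_mul, map_mul]
    show freeHom T x (freeHom T y c) = _
    rw [hy, map_zsmul, hx, smul_smul, mul_comm]
  | add x y hx hy =>
    rw [map_add, map_add, add_smul, ← hx, ← hy]
    rfl

end Ambient

/-! ### Part 5: `MW` modulo torsion -/

section Main

variable {ι J : Type*} [AddCommGroup J] (MW : AddSubgroup J) (T : ι → AddMonoid.End J)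
  (hT : ∀ i, ∀ z ∈ MW, T i z ∈ MW)

/-- the restriction of `T i` to `MW`. -/
noncomputable def resT (i : ι) : MW →+ MW :=
  ((T i : J →+ J).comp MW.subtype).codRestrict MW fun z => hT i z z.2

@[simp] theorem coe_resT (i : ι) (z : MW) : ((resT MW T hT i z : MW) : J) = T i z := rfl

/-- `MW` modulo torsion. -/
abbrev Quo : Type _ := MW ⧸ AddCommGroup.torsion MW

/-- the operator induced by `T i` on `MW / tors`. -/
noncomputable def quoT (i : ι) : AddMonoid.End (Quo MW) :=
  QuotientAddGroup.map _ _ (resT MW T hT i) fun z hz => by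
    rw [AddSubgroup.mem_comap, AddCommGroup.mem_torsion] at *
    exact (resT MW T hT i).isOfFinAddOrder hz

theorem quoT_mk (i : ι) (z : MW) :
    quoT MW T hT i (QuotientAddGroup.mk z) = QuotientAddGroup.mk (resT MW T hT i z) := rfl

theorem mk_eq_zero_iff (z : MW) :
    (QuotientAddGroup.mk z : Quo MW) = 0 ↔ IsOfFinAddOrder (z : J) := by
  rw [QuotientAddGroup.eq_zero_iff, AddCommGroup.mem_torsion]
  exact (AddSubmonoid.isOfFinAddOrder_coe (H := MW.toAddSubmonoid) (x := z)).symm

end Main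

/-! ### Part 6: the theorem -/

section Final

variable {ι J : Type*} [AddCommGroup J] (MW : AddSubgroup J) (T : ι → AddMonoid.End J)
  (hT : ∀ i, ∀ z ∈ MW, T i z ∈ MW)

theorem quoT_commute
    (hcomm : ∀ i j, ∀ z ∈ MW, IsOfFinAddOrder (T i (T j z) - T j (T i z))) (i j : ι) :
    Commute (quoT MW T hT i) (quoT MW T hT j) := by
  refine AddMonoidHom.ext fun x => ?_
  obtain ⟨z, rfl⟩ := QuotientAddGroup.mk_surjective x
  show quoT MW T hT i (quoT MW T hT j (QuotientAddGroup.mk z)) =
    quoT MW T hT j (quoT MW T hT i (QuotientAddGroup.mk z))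
  rw [quoT_mk, quoT_mk, quoT_mk, quoT_mk, ← sub_eq_zero, ← QuotientAddGroup.mk_sub,
    mk_eq_zero_iff]
  exact hcomm i j z z.2

/-- compatibility of the free-algebra action on `J` with the polynomial action on `MW / tors`. -/
theorem freeHom_compat
    (hcomm : ∀ i j, ∀ z ∈ MW, IsOfFinAddOrder (T i (T j z) - T j (T i z)))
    (q : FreeAlgebra ℤ ι) :
    (∀ z ∈ MW, freeHom T q z ∈ MW) ∧ ∀ (z y : MW), (y : J) = freeHom T q (z : J) →
      (QuotientAddGroup.mk y : Quo MW) =
        polyHom (quoT MW T hT) (quoT_commute MW T hT hcomm) (freeToPoly ι q)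
          (QuotientAddGroup.mk z) := by
  induction q with
  | grade0 n =>
    have h1 : ∀ z : J, freeHom T (algebraMap ℤ (FreeAlgebra ℤ ι) n) z = n • z := by
      intro z
      rw [AlgHom.commutes]
      simp
    refine ⟨fun z hz => by rw [h1]; exact MW.zsmul_mem hz n, fun z y hy => ?_⟩
    rw [AlgHom.commutes, MvPolynomial.algebraMap_eq, polyHom_C, AddMonoid.End.intCast_apply,
      ← QuotientAddGroup.mk_zsmul]
    congr 1
    exact Subtype.ext (by rw [hy, h1]; rfl)
  | grade1 i =>
    have h1 : ∀ z : J, freeHom T (FreeAlgebra.ι ℤ i) z = T i z := by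
      intro z
      rw [freeHom, FreeAlgebra.lift_ι_apply]
    refine ⟨fun z hz => by rw [h1]; exact hT i z hz, fun z y hy => ?_⟩
    rw [freeToPoly, FreeAlgebra.lift_ι_apply, polyHom_X, quoT_mk]
    congr 1
    exact Subtype.ext (by rw [hy, h1]; rfl)
  | mul x y' hx hy' =>
    obtain ⟨hxm, hxe⟩ := hx
    obtain ⟨hym, hye⟩ := hy'
    have h1 : ∀ z : J, freeHom T (x * y') z = freeHom T x (freeHom T y' z) := by
      intro z
      rw [map_mul]
      rfl
    refine ⟨fun z hz => by rw [h1]; exact hxm _ (hym z hz), fun z y hy => ?_⟩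
    have e1 := hye z ⟨freeHom T y' z, hym z z.2⟩ rfl
    have e2 := hxe ⟨freeHom T y' z, hym z z.2⟩ y (by rw [hy, h1])
    rw [map_mul, map_mul]
    show _ = polyHom (quoT MW T hT) (quoT_commute MW T hT hcomm) (freeToPoly ι x)
      (polyHom (quoT MW T hT) (quoT_commute MW T hT hcomm) (freeToPoly ι y')
        (QuotientAddGroup.mk z))
    rw [← e1, ← e2]
  | add x y' hx hy' =>
    obtain ⟨hxm, hxe⟩ := hx
    obtain ⟨hym, hye⟩ := hy'
    have h1 : ∀ z : J, freeHom T (x + y') z = freeHom T x z + freeHom T y' z := by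
      intro z
      rw [map_add]
      rfl
    refine ⟨fun z hz => by rw [h1]; exact MW.add_mem (hxm z hz) (hym z hz), fun z y hy => ?_⟩
    have e1 := hxe z ⟨freeHom T x z, hxm z z.2⟩ rfl
    have e2 := hye z ⟨freeHom T y' z, hym z z.2⟩ rfl
    rw [map_add, map_add]
    show _ = polyHom (quoT MW T hT) (quoT_commute MW T hT hcomm) (freeToPoly ι x)
        (QuotientAddGroup.mk z) +
      polyHom (quoT MW T hT) (quoT_commute MW T hT hcomm) (freeToPoly ι y') (QuotientAddGroup.mk z)
    rw [← e1, ← e2, ← QuotientAddGroup.mk_add]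
    congr 1
    exact Subtype.ext (by rw [hy, h1]; rfl)

include hT in
/-- **(NAK)**, strong form: the integer `e` is `≡ 1 mod r`. -/
theorem exists_adjoin_kill_strong (hfg : MW.FG) (a : ι → ℤ) (r : ℕ) (hr : 0 < r)
    (hcomm : ∀ i j, ∀ z ∈ MW, IsOfFinAddOrder (T i (T j z) - T j (T i z)))
    (hker : ∀ z ∈ MW, (∀ i, ∃ w ∈ MW, IsOfFinAddOrder (T i z - a i • z - r • w)) →
      ∃ w ∈ MW, IsOfFinAddOrder (z - r • w)) :
    ∃ t ∈ Algebra.adjoin ℤ (Set.range T), ∃ e : ℤ, (e : ZMod r) = 1 ∧
      (∀ c : J, (∀ i, T i c = a i • c) → t c = e • c) ∧ ∀ z ∈ MW, IsOfFinAddOrder (t z) := by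
  classical
  have hS := quoT_commute MW T hT hcomm
  have : AddGroup.FG MW := (AddGroup.fg_iff_addSubgroup_fg MW).mpr hfg
  have : AddGroup.FG (Quo MW) :=
    AddGroup.fg_of_surjective (f := QuotientAddGroup.mk' _) (QuotientAddGroup.mk'_surjective _)
  obtain ⟨Q, hQ1, hQ⟩ := exists_poly_kill (quoT MW T hT) hS a r hr (by
    intro x hx
    obtain ⟨z, rfl⟩ := QuotientAddGroup.mk_surjective x
    obtain ⟨w, hw, hfin⟩ := hker z z.2 (fun i => by
      obtain ⟨y, hy⟩ := hx i
      obtain ⟨w, rfl⟩ := QuotientAddGroup.mk_surjective y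
      refine ⟨w, w.2, ?_⟩
      have h0 : (QuotientAddGroup.mk (resT MW T hT i z - a i • z - r • w) : Quo MW) = 0 := by
        rw [QuotientAddGroup.mk_sub, QuotientAddGroup.mk_sub, QuotientAddGroup.mk_zsmul,
          QuotientAddGroup.mk_nsmul, ← quoT_mk, hy, sub_self]
      exact (mk_eq_zero_iff MW _).mp h0)
    refine ⟨QuotientAddGroup.mk ⟨w, hw⟩, ?_⟩
    rw [← QuotientAddGroup.mk_nsmul, ← sub_eq_zero, ← QuotientAddGroup.mk_sub, mk_eq_zero_iff]
    exact hfin)
  obtain ⟨q, rfl⟩ := freeToPoly_surjective ι Q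
  refine ⟨freeHom T q, freeHom_mem_adjoin T q, freeEval a q, ?_,
    fun c hc => freeHom_eigen T a hc q, fun z hz => ?_⟩
  · rw [freeEval_eq]
    exact hQ1
  · obtain ⟨h, hk⟩ := freeHom_compat MW T hT hcomm q
    have h2 := hk ⟨z, hz⟩ ⟨freeHom T q z, h z hz⟩ rfl
    rw [hQ] at h2
    exact (mk_eq_zero_iff MW _).mp h2

include hT in
/-- **(NAK)**: `MW` a finitely generated subgroup of `J` stable under the `T i`, which commute modulo
torsion on `MW`; if `(MW / tors) / r` has no common eigenvector with eigenvalues `a i`, there is `t` in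
the `ℤ`-algebra generated by the `T i` killing `MW` modulo torsion and acting on exact eigenvectors
as an integer prime to `r`. -/
theorem exists_adjoin_kill (hfg : MW.FG) (a : ι → ℤ) (r : ℕ) (hr : r.Prime)
    (hcomm : ∀ i j, ∀ z ∈ MW, IsOfFinAddOrder (T i (T j z) - T j (T i z)))
    (hker : ∀ z ∈ MW, (∀ i, ∃ w ∈ MW, IsOfFinAddOrder (T i z - a i • z - r • w)) →
      ∃ w ∈ MW, IsOfFinAddOrder (z - r • w)) :
    ∃ t ∈ Algebra.adjoin ℤ (Set.range T), ∃ e : ℤ, ¬ (r : ℤ) ∣ e ∧
      (∀ c : J, (∀ i, T i c = a i • c) → t c = e • c) ∧ ∀ z ∈ MW, IsOfFinAddOrder (t z) := by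
  obtain ⟨t, ht, e, he, hc, hz⟩ := exists_adjoin_kill_strong MW T hT hfg a r hr.pos hcomm hker
  refine ⟨t, ht, e, fun hdvd => ?_, hc, hz⟩
  have h0 : (e : ZMod r) = 0 := (ZMod.intCast_zmod_eq_zero_iff_dvd _ _).mpr hdvd
  rw [he] at h0
  have : Fact (1 < r) := ⟨hr.one_lt⟩
  exact one_ne_zero h0

end Final

end Fermat.Agent.GZ.Nak
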