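/-
GATE-Z (S15) / seam (HCOMM), file 2 (helper67): **the INSTANCE** of `GZ/HComm.lean` on `J₀(N)(ℚ̄)`.

Inputs, all on main:
* (HGAL)        `GZ/HGal/Main.heckeOperatorBar_smul`      (helper42): `T_q (σ • x) = σ • T_q x`;
* (HECKE-TORS)  `GZ/HeckeTors/Comm.hecke_comm_tors`       (helper36): `T_ℓ T_ℓ' = T_ℓ' T_ℓ` on torsion
                (`ℓ, ℓ' ∤ N`).

Binders left:
* `DivRat N`    : every RATIONAL point of `J₀(N)(ℚ̄)` is divisible in `J₀(N)(ℚ̄)`
                  (helper87, GZ-LOCP-DIV);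
* `hfg`         : `J₀(N)(ℚ)` is finitely generated (frozen S17 for `N` prime `≥ 5`).

Output: `hecke_comm_fixed` (the Hecke operators at primes `∤ N` commute on `J₀(N)(ℚ)`), and the two
binders `hT`, `hcomm` of `GZ/Nak.exists_adjoin_kill` VERBATIM for
`MW := FixedPoints.addSubgroup GQ (JZero N)` (`= F.MW p`) and any family of primes `∤ N`.
-/
import Fermat.Agent.GZ.HComm
import Fermat.Agent.GZ.Nak
import Fermat.Agent.GZ.HGal.Main
import Fermat.Agent.GZ.HeckeTors.Comm

set_option autoImplicit false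
set_option linter.unusedSectionVars false
set_option linter.unusedVariables false

noncomputable section

open AlgebraicCurve ModularCurve

namespace Fermat.Agent.GZ.HCommInst

local notation "Qb" => AlgebraicClosure ℚ
local notation "GQ" => (AlgebraicClosure ℚ ≃ₐ[ℚ] AlgebraicClosure ℚ)

/-! ### Abstract variant of `HComm.eq_zero_on_fixed`: divisibility of the FIXED elements only -/

section Abstract

variable {G J : Type*} [Group G] [AddCommGroup J] [DistribMulAction G J]

/-- `HComm.eq_zero_on_fixed` with the divisibility hypothesis restricted to the fixed elements. -/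
theorem eq_zero_on_fixed_of_divRat (φ : J →+ J) (hGal : ∀ (σ : G) (z : J), φ (σ • z) = σ • φ z)
    (htors : ∀ z : J, IsOfFinAddOrder z → φ z = 0)
    (hdiv : ∀ z : J, (∀ σ : G, σ • z = z) → ∀ m : ℕ, 0 < m → ∃ R : J, m • R = z)
    (hfg : (FixedPoints.addSubgroup G J).FG) (z : J) (hz : ∀ σ : G, σ • z = z) : φ z = 0 := by
  have : Module.Finite ℤ (FixedPoints.addSubgroup G J) :=
    Module.Finite.iff_addGroup_fg.2 ((AddGroup.fg_iff_addSubgroup_fg _).2 hfg)
  have hφfix : ∀ w : J, (∀ σ : G, σ • w = w) → ∀ σ : G, σ • φ w = φ w := by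
    intro w hw σ
    rw [← hGal, hw]
  have key : (⟨φ z, (FixedPoints.mem_addSubgroup G J _).2 (hφfix z hz)⟩ :
      FixedPoints.addSubgroup G J) = 0 := by
    apply HComm.eq_zero_of_forall_dvd
    intro m hm
    obtain ⟨R, hR⟩ := hdiv z hz m hm
    have hRfix : ∀ σ : G, σ • φ R = φ R := by
      intro σ
      have h1 : IsOfFinAddOrder (σ • R - R) := by
        rw [isOfFinAddOrder_iff_nsmul_eq_zero]
        refine ⟨m, hm, ?_⟩
        rw [smul_sub, smul_comm m σ R, hR, hz, sub_self]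
      have h2 := htors _ h1
      rw [map_sub, hGal, sub_eq_zero] at h2
      exact h2
    refine ⟨⟨φ R, (FixedPoints.mem_addSubgroup G J _).2 hRfix⟩, ?_⟩
    apply Subtype.ext
    rw [AddSubgroup.coe_nsmul]
    change m • φ R = φ z
    rw [← map_nsmul, hR]
  exact congrArg Subtype.val key

end Abstract

/-! ### `GZ/Nak.exists_adjoin_kill` for a `Module.End ℤ`-valued family -/

section NakLin

variable {ι J : Type*} [AddCommGroup J]

/-- the ring isomorphism `AddMonoid.End J ≃ Module.End ℤ J` as a `ℤ`-algebra hom. -/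
def endToLin (J : Type*) [AddCommGroup J] : AddMonoid.End J →ₐ[ℤ] Module.End ℤ J :=
  (addMonoidEndRingEquivInt J).toRingHom.toIntAlgHom

theorem endToLin_apply (t : AddMonoid.End J) (z : J) : endToLin J t z = t z := rfl

/-- **(NAK) in `Module.End ℤ` vocabulary**: `GZ/Nak.exists_adjoin_kill` for a family
`T : ι → Module.End ℤ J`, with `t ∈ Algebra.adjoin ℤ (Set.range T)` inside `Module.End ℤ J`. -/
theorem exists_adjoin_kill_lin (MW : AddSubgroup J) (T : ι → Module.End ℤ J)
    (hT : ∀ i, ∀ z ∈ MW, T i z ∈ MW) (hfg : MW.FG) (a : ι → ℤ) (r : ℕ) (hr : r.Prime)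
    (hcomm : ∀ i j, ∀ z ∈ MW, IsOfFinAddOrder (T i (T j z) - T j (T i z)))
    (hker : ∀ z ∈ MW, (∀ i, ∃ w ∈ MW, IsOfFinAddOrder (T i z - a i • z - r • w)) →
      ∃ w ∈ MW, IsOfFinAddOrder (z - r • w)) :
    ∃ t ∈ Algebra.adjoin ℤ (Set.range T), ∃ e : ℤ, ¬ (r : ℤ) ∣ e ∧
      (∀ c : J, (∀ i, T i c = a i • c) → t c = e • c) ∧ ∀ z ∈ MW, IsOfFinAddOrder (t z) := by
  set T' : ι → AddMonoid.End J := fun i => (T i).toAddMonoidHom with hT'
  have hTT' : ∀ i z, T' i z = T i z := fun _ _ => rfl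
  obtain ⟨t, ht, e, he, hc, hz⟩ := Nak.exists_adjoin_kill MW T' hT hfg a r hr hcomm hker
  refine ⟨endToLin J t, ?_, e, he, fun c hcc => hc c hcc, hz⟩
  have h1 : endToLin J t ∈ (Algebra.adjoin ℤ (Set.range T')).map (endToLin J) := ⟨t, ht, rfl⟩
  rw [AlgHom.map_adjoin] at h1
  refine Algebra.adjoin_mono ?_ h1
  rintro _ ⟨_, ⟨i, rfl⟩, rfl⟩
  refine ⟨i, ?_⟩
  apply LinearMap.ext
  intro z
  rfl

end NakLin

/-! ### The instance on `J₀(N)(ℚ̄)` -/

variable (N : ℕ) [NeZero N]

/-- **(DIV), rational form**: every Galois-fixed element of `J₀(N)(ℚ̄)` is divisible by every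
`m > 0` in `J₀(N)(ℚ̄)`. -/
def DivRat : Prop :=
  ∀ z : JZero N, (∀ σ : GQ, σ • z = z) → ∀ m : ℕ, 0 < m → ∃ R : JZero N, m • R = z

/-- full divisibility implies the rational form -/
theorem divRat_of_div (h : ∀ (z : JZero N) (m : ℕ), 0 < m → ∃ R : JZero N, m • R = z) :
    DivRat N := fun z _ m hm => h z m hm

/-- the commutator of two Hecke operators, as an additive endomorphism -/
def comm (q q' : Nat.Primes) : JZero N →+ JZero N :=
  ((heckeOperatorBar N q * heckeOperatorBar N q' - heckeOperatorBar N q' * heckeOperatorBar N q :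
    Module.End ℤ (JZero N))).toAddMonoidHom

theorem comm_apply (q q' : Nat.Primes) (z : JZero N) :
    comm N q q' z = heckeOperatorBar N q (heckeOperatorBar N q' z) -
      heckeOperatorBar N q' (heckeOperatorBar N q z) := rfl

/-- **(HCOMM)**: the Hecke operators at primes not dividing the level commute on `J₀(N)(ℚ)`. -/
theorem hecke_comm_fixed (hdiv : DivRat N)
    (hfg : (FixedPoints.addSubgroup GQ (JZero N)).FG) (q q' : Nat.Primes)
    (hq : ¬ (q : ℕ) ∣ N) (hq' : ¬ (q' : ℕ) ∣ N) (z : JZero N) (hz : ∀ σ : GQ, σ • z = z) :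
    heckeOperatorBar N q (heckeOperatorBar N q' z) =
      heckeOperatorBar N q' (heckeOperatorBar N q z) := by
  have h := eq_zero_on_fixed_of_divRat (G := GQ) (comm N q q')
    (fun σ w => by
      rw [comm_apply, comm_apply, HGal.heckeOperatorBar_smul, HGal.heckeOperatorBar_smul,
        HGal.heckeOperatorBar_smul, HGal.heckeOperatorBar_smul, smul_sub])
    (fun w hw => by
      rw [comm_apply, sub_eq_zero]
      exact HeckeTors.hecke_comm_tors N q.2 hq q'.2 hq' w hw)
    hdiv hfg z hz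
  rw [comm_apply, sub_eq_zero] at h
  exact h

/-- `hecke_comm_fixed` on the subgroup `FixedPoints.addSubgroup GQ (JZero N)` -/
theorem hecke_comm_mem (hdiv : DivRat N)
    (hfg : (FixedPoints.addSubgroup GQ (JZero N)).FG) (q q' : Nat.Primes)
    (hq : ¬ (q : ℕ) ∣ N) (hq' : ¬ (q' : ℕ) ∣ N) (z : JZero N)
    (hz : z ∈ FixedPoints.addSubgroup GQ (JZero N)) :
    heckeOperatorBar N q (heckeOperatorBar N q' z) =
      heckeOperatorBar N q' (heckeOperatorBar N q z) :=
  hecke_comm_fixed N hdiv hfg q q' hq hq' z ((FixedPoints.mem_addSubgroup GQ (JZero N) z).1 hz)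

/-! ### The binders of `GZ/Nak.exists_adjoin_kill` -/

/-- the binder `hT` of `GZ/Nak` (no hypothesis). -/
theorem hecke_mem {ι : Type*} (q : ι → Nat.Primes) :
    ∀ i, ∀ z ∈ FixedPoints.addSubgroup GQ (JZero N),
      heckeOperatorBar N (q i) z ∈ FixedPoints.addSubgroup GQ (JZero N) :=
  fun i _ hz => HGal.heckeOperatorBar_mem_fixedPoints N (q i) hz

/-- the binder `hcomm` of `GZ/Nak.exists_adjoin_kill`, VERBATIM (for the family
`T i := heckeOperatorBar N (q i)`). -/
theorem hecke_comm {ι : Type*} (q : ι → Nat.Primes) (hq : ∀ i, ¬ ((q i : ℕ) ∣ N))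
    (hdiv : DivRat N) (hfg : (FixedPoints.addSubgroup GQ (JZero N)).FG) :
    ∀ i j, ∀ z ∈ FixedPoints.addSubgroup GQ (JZero N),
      IsOfFinAddOrder (heckeOperatorBar N (q i) (heckeOperatorBar N (q j) z) -
        heckeOperatorBar N (q j) (heckeOperatorBar N (q i) z)) := by
  intro i j z hz
  rw [hecke_comm_mem N hdiv hfg (q i) (q j) (hq i) (hq j) z hz, sub_self]
  exact IsOfFinAddOrder.zero

/-- **(NAK) for the Hecke operators of `J₀(N)(ℚ)`**: `GZ/Nak.exists_adjoin_kill` with `hT`, `hcomm`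
discharged; conclusion in the `Module.End ℤ (JZero N)` vocabulary of `Top.FStmt`. -/
theorem exists_adjoin_kill_hecke {ι : Type*} (q : ι → Nat.Primes) (hq : ∀ i, ¬ ((q i : ℕ) ∣ N))
    (hdiv : DivRat N) (hfg : (FixedPoints.addSubgroup GQ (JZero N)).FG) (a : ι → ℤ) (r : ℕ)
    (hr : r.Prime)
    (hker : ∀ z ∈ FixedPoints.addSubgroup GQ (JZero N),
      (∀ i, ∃ w ∈ FixedPoints.addSubgroup GQ (JZero N),
        IsOfFinAddOrder (heckeOperatorBar N (q i) z - a i • z - r • w)) →
      ∃ w ∈ FixedPoints.addSubgroup GQ (JZero N), IsOfFinAddOrder (z - r • w)) :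
    ∃ t ∈ Algebra.adjoin ℤ (Set.range fun i => heckeOperatorBar N (q i)), ∃ e : ℤ, ¬ (r : ℤ) ∣ e ∧
      (∀ c : JZero N, (∀ i, heckeOperatorBar N (q i) c = a i • c) → t c = e • c) ∧
      ∀ z : JZero N, (∀ σ : GQ, σ • z = z) → IsOfFinAddOrder (t z) := by
  obtain ⟨t, ht, e, he, hc, hz⟩ := exists_adjoin_kill_lin
    (FixedPoints.addSubgroup GQ (JZero N)) (fun i => heckeOperatorBar N (q i)) (hecke_mem N q)
    hfg a r hr (hecke_comm N q hq hdiv hfg) hker
  exact ⟨t, ht, e, he, hc, fun z hzz =>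
    hz z ((FixedPoints.mem_addSubgroup GQ (JZero N) z).2 hzz)⟩

end Fermat.Agent.GZ.HCommInst
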