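/-
GATE-Z (S15) / seam (HCOMM), file 3 (helper67): **the (NAK) step of `Top.FStmt` at prime level `p ≥ 5`**
with `hT`, `hcomm`, `hfg` DISCHARGED:

* `hfg`   := frozen S17 (`Fermat.Agent.S17.result`);
* `hT`    := (HGAL)  `GZ/HGal/Main` (helper42);
* `hcomm` := (HCOMM) `GZ/HCommInst.hecke_comm` = (HGAL) + `HeckeTors.hecke_comm_tors` (helper36)
             + `DivRat p` (binder; helper87 GZ-LOCP-DIV).

Output `fStmt_of_hker` : `Top.FStmt C S` from
* a prime `r ∣ addOrderOf C.c`,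
* `HCommInst.DivRat p`,
* the Nakayama hypothesis `HKer p S r` (no common Eisenstein eigenvector in `(MW / tors) / r`; this is
  what `F.Grow.grow_core` + the Selmer bound produce).
-/
import Fermat.Agent.GZ.HCommInst
import Fermat.Agent.GZ.F.Pin
import Fermat.Agent.S17

set_option autoImplicit false
set_option linter.unusedSectionVars false
set_option linter.unusedVariables false

noncomputable section

open AlgebraicCurve ModularCurve

namespace Fermat.Agent.GZ.HCommTop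

local notation "Qb" => AlgebraicClosure ℚ
local notation "GQ" => (AlgebraicClosure ℚ ≃ₐ[ℚ] AlgebraicClosure ℚ)

variable (p : ℕ) [NeZero p]

/-- the good primes: `q ∉ S`, `q ≠ p`. -/
abbrev GoodPrime (S : Finset ℕ) : Type := {q : Nat.Primes // (q : ℕ) ∉ S ∧ (q : ℕ) ≠ p}

/-- the Hecke family indexed by the good primes -/
abbrev goodT (S : Finset ℕ) : GoodPrime p S → Module.End ℤ (JZero p) :=
  fun i => heckeOperatorBar p i.1

/-- the range of the good Hecke family is `Top.heckeGens p S`. -/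
theorem range_goodT (S : Finset ℕ) : Set.range (goodT p S) = Top.heckeGens p S := by
  ext T
  constructor
  · rintro ⟨i, rfl⟩
    exact ⟨i.1, i.2.1, i.2.2, rfl⟩
  · rintro ⟨q, hqS, hqp, rfl⟩
    exact ⟨⟨q, hqS, hqp⟩, rfl⟩

/-- a prime `q ≠ p` does not divide the prime `p`. -/
theorem not_dvd_of_ne (hp : p.Prime) (q : Nat.Primes) (hq : (q : ℕ) ≠ p) : ¬ ((q : ℕ) ∣ p) := by
  intro h
  rcases (Nat.dvd_prime hp).1 h with h1 | h1
  · exact q.2.one_lt.ne' h1
  · exact hq h1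

/-- **frozen S17** in `AddSubgroup.FG` form. -/
theorem mw_fg (hp : p.Prime) (hp5 : 5 ≤ p) : (FixedPoints.addSubgroup GQ (JZero p)).FG :=
  (AddGroup.fg_iff_addSubgroup_fg _).1 (Fermat.Agent.S17.result p hp hp5)

/-- **HCOMM at prime level, binder `DivRat p` only**: the `T_q`, `q ≠ p`, commute on `J₀(p)(ℚ)`. -/
theorem hecke_comm_fixed (hp : p.Prime) (hp5 : 5 ≤ p) (hdiv : HCommInst.DivRat p)
    (q q' : Nat.Primes) (hq : (q : ℕ) ≠ p) (hq' : (q' : ℕ) ≠ p) (z : JZero p)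
    (hz : ∀ σ : GQ, σ • z = z) :
    heckeOperatorBar p q (heckeOperatorBar p q' z) =
      heckeOperatorBar p q' (heckeOperatorBar p q z) :=
  HCommInst.hecke_comm_fixed p hdiv (mw_fg p hp hp5) q q' (not_dvd_of_ne p hp q hq)
    (not_dvd_of_ne p hp q' hq') z hz

/-- the Nakayama hypothesis of `GZ/Nak.exists_adjoin_kill` for the Eisenstein eigenvalues
`a q = q + 1` on `MW = J₀(p)(ℚ)`: no common Eisenstein eigenvector in `(MW / tors) / r`. -/
def HKer (S : Finset ℕ) (r : ℕ) : Prop :=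
  ∀ z ∈ F.MW p,
    (∀ q : Nat.Primes, (q : ℕ) ∉ S → (q : ℕ) ≠ p →
      ∃ w ∈ F.MW p, IsOfFinAddOrder (heckeOperatorBar p q z - (((q : ℕ) : ℤ) + 1) • z - r • w)) →
    ∃ w ∈ F.MW p, IsOfFinAddOrder (z - r • w)

/-- **(NAK) at prime level**: `hT`, `hcomm`, `hfg` discharged. -/
theorem exists_adjoin_kill_top (hp : p.Prime) (hp5 : 5 ≤ p) (S : Finset ℕ)
    (hdiv : HCommInst.DivRat p) (r : ℕ) (hr : r.Prime) (hker : HKer p S r) :
    ∃ t ∈ Algebra.adjoin ℤ (Top.heckeGens p S), ∃ e : ℤ, ¬ (r : ℤ) ∣ e ∧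
      (∀ c : JZero p, (∀ q : Nat.Primes, (q : ℕ) ∉ S → (q : ℕ) ≠ p →
          heckeOperatorBar p q c = (((q : ℕ) : ℤ) + 1) • c) → t c = e • c) ∧
      ∀ z : JZero p, (∀ σ : GQ, σ • z = z) → IsOfFinAddOrder (t z) := by
  obtain ⟨t, ht, e, he, hc, hz⟩ := HCommInst.exists_adjoin_kill_hecke p
    (fun i : GoodPrime p S => i.1) (fun i => not_dvd_of_ne p hp i.1 i.2.2) hdiv (mw_fg p hp hp5)
    (fun i => (((i.1 : ℕ) : ℤ) + 1)) r hr
    (fun z hz hi => hker z hz (fun q hqS hqp => hi ⟨q, hqS, hqp⟩))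
  refine ⟨t, ?_, e, he, fun c hcc => hc c (fun i => hcc i.1 i.2.1 i.2.2), hz⟩
  have h := range_goodT p S
  unfold goodT at h
  rw [← h]
  exact ht

/-- **`Top.FStmt` from the Nakayama hypothesis**: `r ∣ addOrderOf C.c` (U2), `DivRat p` (DIV),
`HKer p S r` (GROW + KUMLOC + SB). -/
theorem fStmt_of_hker (hp : p.Prime) (hp5 : 5 ≤ p) (C : Top.CuspPkg p) (S : Finset ℕ)
    (hdiv : HCommInst.DivRat p) (r : ℕ) (hr : r.Prime) (hrc : r ∣ addOrderOf C.c)
    (hker : HKer p S r) : Top.FStmt C S := by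
  obtain ⟨t, ht, e, he, hc, hz⟩ := exists_adjoin_kill_top p hp hp5 S hdiv r hr hker
  refine ⟨r, hr, hrc, t, ht, e, hc C.c (fun q _ hqp => ?_), he, hz⟩
  have h := C.hecke q hqp
  change heckeOperatorBar p q C.c = ((q : ℕ) + 1) • C.c at h
  rw [h, ← natCast_zsmul, Nat.cast_add, Nat.cast_one]

end Fermat.Agent.GZ.HCommTop
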