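/-
GATE-Z (S15) / seam (HCOMM), file 4 (helper67): **(HCOMM) CLOSED BINDER-FREE.**

`DivRat N` (the last binder of `GZ/HCommInst`, `GZ/HCommTop`) is discharged by helper87's
`GZ/LocP/Div.divHyp` (rational classes of `J₀(N)(ℚ̄)` are divisible).

* `hecke_comm_fixed`   : `T_q T_q' z = T_q' T_q z` for `q, q' ∤ N`, `z ∈ J₀(N)(ℚ)`, given only that
                         `J₀(N)(ℚ)` is finitely generated;
* `hecke_comm_prime`   : the same at prime level `p ≥ 5`, NO hypothesis (frozen S17 inside);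
* `hecke_comm`         : the `hcomm` binder of `GZ/Nak.exists_adjoin_kill`, VERBATIM;
* `fStmt_of_hker`      : `Top.FStmt C S` from a prime `r ∣ addOrderOf C.c` and the Nakayama hypothesis
                         `HCommTop.HKer p S r` ALONE.
-/
import Fermat.Agent.GZ.HCommTop
import Fermat.Agent.GZ.LocP.Div

set_option autoImplicit false
set_option linter.unusedSectionVars false
set_option linter.unusedVariables false

noncomputable section

open AlgebraicCurve ModularCurve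

namespace Fermat.Agent.GZ.HCommFinal

local notation "Qb" => AlgebraicClosure ℚ
local notation "GQ" => (AlgebraicClosure ℚ ≃ₐ[ℚ] AlgebraicClosure ℚ)

/-- **(DIV), rational form** (helper87 `GZ/LocP/Div.divHyp`). -/
theorem divRat (N : ℕ) [NeZero N] : HCommInst.DivRat N :=
  fun z hz m hm => LocP.Div.divHyp N z hz m hm.ne'

/-- **(HCOMM)**, any level: the Hecke operators at primes not dividing `N` commute on `J₀(N)(ℚ)`
as soon as `J₀(N)(ℚ)` is finitely generated. -/
theorem hecke_comm_fixed (N : ℕ) [NeZero N]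
    (hfg : (FixedPoints.addSubgroup GQ (JZero N)).FG) (q q' : Nat.Primes)
    (hq : ¬ (q : ℕ) ∣ N) (hq' : ¬ (q' : ℕ) ∣ N) (z : JZero N) (hz : ∀ σ : GQ, σ • z = z) :
    heckeOperatorBar N q (heckeOperatorBar N q' z) =
      heckeOperatorBar N q' (heckeOperatorBar N q z) :=
  HCommInst.hecke_comm_fixed N (divRat N) hfg q q' hq hq' z hz

/-- **(HCOMM) at prime level `p ≥ 5`, binder-free.** -/
theorem hecke_comm_prime (p : ℕ) [NeZero p] (hp : p.Prime) (hp5 : 5 ≤ p) (q q' : Nat.Primes)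
    (hq : (q : ℕ) ≠ p) (hq' : (q' : ℕ) ≠ p) (z : JZero p) (hz : ∀ σ : GQ, σ • z = z) :
    heckeOperatorBar p q (heckeOperatorBar p q' z) =
      heckeOperatorBar p q' (heckeOperatorBar p q z) :=
  HCommTop.hecke_comm_fixed p hp hp5 (divRat p) q q' hq hq' z hz

/-- the `hcomm` binder of `GZ/Nak.exists_adjoin_kill`, VERBATIM, at prime level, binder-free. -/
theorem hecke_comm (p : ℕ) [NeZero p] (hp : p.Prime) (hp5 : 5 ≤ p) {ι : Type*}
    (q : ι → Nat.Primes) (hq : ∀ i, (q i : ℕ) ≠ p) :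
    ∀ i j, ∀ z ∈ FixedPoints.addSubgroup GQ (JZero p),
      IsOfFinAddOrder (heckeOperatorBar p (q i) (heckeOperatorBar p (q j) z) -
        heckeOperatorBar p (q j) (heckeOperatorBar p (q i) z)) :=
  HCommInst.hecke_comm p q (fun i => HCommTop.not_dvd_of_ne p hp (q i) (hq i)) (divRat p)
    (HCommTop.mw_fg p hp hp5)

/-- **(NAK) at prime level**, all of `hT`, `hcomm`, `hfg`, `hdiv` discharged. -/
theorem exists_adjoin_kill_top (p : ℕ) [NeZero p] (hp : p.Prime) (hp5 : 5 ≤ p) (S : Finset ℕ)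
    (r : ℕ) (hr : r.Prime) (hker : HCommTop.HKer p S r) :
    ∃ t ∈ Algebra.adjoin ℤ (Top.heckeGens p S), ∃ e : ℤ, ¬ (r : ℤ) ∣ e ∧
      (∀ c : JZero p, (∀ q : Nat.Primes, (q : ℕ) ∉ S → (q : ℕ) ≠ p →
          heckeOperatorBar p q c = (((q : ℕ) : ℤ) + 1) • c) → t c = e • c) ∧
      ∀ z : JZero p, (∀ σ : GQ, σ • z = z) → IsOfFinAddOrder (t z) :=
  HCommTop.exists_adjoin_kill_top p hp hp5 S (divRat p) r hr hker

/-- **`Top.FStmt` from the Nakayama hypothesis ALONE** (plus `r ∣ addOrderOf C.c`, = U2). -/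
theorem fStmt_of_hker (p : ℕ) [NeZero p] (hp : p.Prime) (hp5 : 5 ≤ p) (C : Top.CuspPkg p)
    (S : Finset ℕ) (r : ℕ) (hr : r.Prime) (hrc : r ∣ addOrderOf C.c)
    (hker : HCommTop.HKer p S r) : Top.FStmt C S :=
  HCommTop.fStmt_of_hker p hp hp5 C S (divRat p) r hr hrc hker

end Fermat.Agent.GZ.HCommFinal
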